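import Fermat.Agent.Twists.KroneckerChar
import Mathlib.NumberTheory.LSeries.PrimesInAP
import Mathlib.Tactic.NormNum.LegendreSymbol

/-!
# Primes modulo which `-2` and a given non-square are no squares
-/

set_option autoImplicit false

namespace FA.CM.Eight

open FA.Twists

/-- `(-2 / n)` for odd `n`. -/
theorem jacobiSym_neg_two_if {n : ℕ} (hn : Odd n) :
    jacobiSym (-2) n = if n % 8 = 1 ∨ n % 8 = 3 then 1 else -1 := by
  rw [jacobiSym.mod_right _ hn, show (4 * (-2 : ℤ).natAbs) = 8 by rfl]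
  have h2 := Nat.odd_iff.mp hn
  rcases (show n % 8 = 1 ∨ n % 8 = 3 ∨ n % 8 = 5 ∨ n % 8 = 7 by omega) with h | h | h | h <;>
    rw [h] <;> norm_num

/-- A number with both symbols `-1`. -/
theorem exists_symbols_eq_neg_one_eight {S : ℕ} (hS : Squarefree S) (h1 : S ≠ 1) :
    ∃ n : ℕ, n % 8 = 5 ∧ jacobiSym S n = -1 := by
  obtain ⟨α, R, hR, hSR⟩ : ∃ α R : ℕ, Odd R ∧ S = 2 ^ α * R := by
    obtain ⟨α, R, hR, e⟩ := Nat.exists_eq_pow_mul_and_not_dvd hS.ne_zero 2 (by norm_num)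
    exact ⟨α, R, Nat.odd_iff.mpr (by omega), e⟩
  have hα : α ≤ 1 := by
    by_contra hα
    obtain ⟨i, rfl⟩ : ∃ i, α = i + 2 := ⟨α - 2, by omega⟩
    exact absurd (hS 2 ⟨2 ^ i * R, by rw [hSR]; ring⟩) (by norm_num)
  have hRsq : Squarefree R := hS.squarefree_of_dvd (hSR ▸ dvd_mul_left R _)
  have hval : ∀ n : ℕ, n % 8 = 5 → jacobiSym S n = (-1) ^ α * jacobiSym n R := fun n hn => by
    have hno : Odd n := Nat.odd_iff.mpr (by omega)
    rw [hSR, Nat.cast_mul, jacobiSym.mul_left, Nat.cast_pow, jacobiSym.pow_left, Nat.cast_ofNat,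
      jacobiSym.at_two hno, ZMod.χ₈_nat_eq_if_mod_eight, if_neg (by omega), if_neg (by omega),
      jacobiSym.quadratic_reciprocity_one_mod_four' hR (by omega)]
  obtain ⟨n₀, h₀, h₀'⟩ := Nat.chineseRemainder
    (((Nat.coprime_two_left.mpr hR).pow_left 3 : Nat.Coprime (2 ^ 3) R)) 5 1
  have hn₀ : n₀ % 8 = 5 := h₀
  have hR₀ : (R : ℤ) ∣ (n₀ : ℤ) - 1 := by simpa using (Nat.modEq_iff_dvd.mp h₀'.symm)
  rcases (show α = 0 ∨ α = 1 by omega) with rfl | rfl
  swap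
  · exact ⟨n₀, hn₀, by rw [hval _ hn₀, jacobiSym_eq_one_of_dvd hR₀]; norm_num⟩
  have hR1 : R ≠ 1 := fun e => h1 (by rw [hSR, e]; norm_num)
  obtain ⟨q, hq, hqR⟩ := Nat.exists_prime_and_dvd hR1
  have := Fact.mk hq
  obtain ⟨n₁, hn₁, hs₁⟩ := exists_symbol_eq_neg_one (c := 8) hR hRsq hqR (fun h => by
    have := (Nat.prime_dvd_prime_iff_eq hq Nat.prime_two).mp (hq.dvd_of_dvd_pow (n := 3) h)
    subst this
    exact absurd (hR.of_dvd_nat hqR) (by decide))
  have h8 : n₁ % 8 = 1 := by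
    have : ((8 : ℕ) : ℤ) ∣ (n₁ : ℤ) - 1 :=
      (Int.natCast_dvd_natCast.mpr (dvd_mul_right 8 _)).trans hn₁
    omega
  have hn : n₀ * n₁ % 8 = 5 := by rw [Nat.mul_mod, hn₀, h8]
  exact ⟨n₀ * n₁, hn, by
    rw [hval _ hn, Nat.cast_mul, jacobiSym.mul_left, hs₁, jacobiSym_eq_one_of_dvd hR₀]; norm_num⟩

/-- **Primes modulo which neither `-2` nor a given non-square is a square.** -/
theorem exists_prime_symbols_eight {N : ℕ} (hN : ¬ IsSquare N) (B : ℕ) :
    ∃ m : ℕ, B < m ∧ m.Prime ∧ jacobiSym (-2) m = -1 ∧ jacobiSym N m = -1 := by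
  have hN0 : 0 < N := Nat.pos_of_ne_zero fun e => hN ⟨0, by simpa using e⟩
  obtain ⟨S, t, -, ht, hst, hS⟩ := Nat.sq_mul_squarefree_of_pos hN0
  have hS1 : S ≠ 1 := fun e => hN ⟨t, by rw [← hst, e]; ring⟩
  obtain ⟨n, hn8, hnS⟩ := exists_symbols_eq_neg_one_eight hS hS1
  have hno : Odd n := Nat.odd_iff.mpr (by omega)
  have hcS : n.Coprime S := by
    by_contra h
    have : NeZero n := ⟨hno.pos.ne'⟩
    rw [jacobiSym.eq_zero_iff_not_coprime.mpr (by
      rw [Int.gcd_natCast_natCast]; exact fun e => h (Nat.coprime_comm.mp e))] at hnS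
    norm_num at hnS
  have hc8 : n.Coprime (8 * S) :=
    ((Nat.coprime_two_right.mpr hno).pow_right 3).mul_right hcS
  obtain ⟨m, hm, hmp, hmod⟩ := Nat.forall_exists_prime_gt_and_modEq (max B (t + 2))
    (q := 8 * S) (a := n) (by have := hS.ne_zero; positivity) hc8
  have hmo : Odd m := hmp.odd_of_ne_two (by omega)
  have := Fact.mk hmp
  refine ⟨m, by omega, hmp, ?_, ?_⟩
  · have hm8 : m % 8 = 5 :=
      Eq.trans (Nat.ModEq.of_dvd (dvd_mul_right 8 S) hmod) hn8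
    rw [jacobiSym_neg_two_if hmo, if_neg (by omega)]
  · rw [← hst, Nat.cast_mul, Nat.cast_pow, jacobiSym.mul_left, jacobiSym.sq_one' (by
      rw [Int.gcd_natCast_natCast]
      exact ((Nat.Prime.coprime_iff_not_dvd hmp).mpr fun h =>
        absurd (Nat.le_of_dvd ht h) (by omega)).symm), one_mul, jacobiSym.mod_right _ hmo,
      Int.natAbs_natCast, show m % (4 * S) = n % (4 * S) from
        Nat.ModEq.of_dvd (show 4 * S ∣ 8 * S from Dvd.intro 2 (by ring)) hmod]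
    have e := jacobiSym.mod_right (S : ℤ) hno
    rw [Int.natAbs_natCast] at e
    rw [← e, hnS]

end FA.CM.Eight
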