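import Fermat.Agent.CM.Cubic.Eisenstein
import Mathlib.NumberTheory.LegendreSymbol.JacobiSymbol
import Mathlib.Tactic.NormNum.LegendreSymbol

/-!
# The Hecke series of a Grössencharakter of `ℚ(√-2)`

On `ℤ[√-2]` the character `χ (x + y √-2)` is the product of a function of `x` modulo `8` and one of
`y` modulo `4`, equal to `(-2 / d)` on integers. Half the sums `∑ χ (α) α` over the elements of norm
`n` satisfy at every prime the recursion of the L-function of a curve with complex multiplication by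
`ℤ[√-2]` and additive reduction at `2`.
-/

set_option autoImplicit false

noncomputable section

open scoped QuadraticAlgebra

namespace FA.CM.Eight

/-- `ℤ[√-2]`. -/
abbrev EightInt : Type := QuadraticAlgebra ℤ (-2) 0

/-- The factor depending on the real part. -/
def gEight (x : ZMod 8) : ℤ := if x = 1 ∨ x = 3 then 1 else if x = 5 ∨ x = 7 then -1 else 0

/-- The factor depending on the imaginary part. -/
def cEight (y : ZMod 4) : ℤ := if y = 0 then 1 else -1

/-- The character. -/
def eightChar (α : EightInt) : ℤ := gEight (α.re : ZMod 8) * cEight (α.im : ZMod 4)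

theorem eightChar_table : ∀ x x' : ZMod 8, ∀ y y' : ZMod 4,
    gEight (x * x' - 2 * (y.val : ZMod 8) * (y'.val : ZMod 8)) *
      cEight ((x.val : ZMod 4) * y' + y * (x'.val : ZMod 4)) =
    gEight x * cEight y * (gEight x' * cEight y') := by
  decide +kernel

theorem eightChar_mul (α β : EightInt) : eightChar (α * β) = eightChar α * eightChar β := by
  obtain ⟨x, y⟩ := α
  obtain ⟨x', y'⟩ := β
  have hx : ∀ z : ℤ, (((z : ZMod 8)).val : ZMod 4) = (z : ZMod 4) := fun z => by
    rw [← Int.cast_natCast, ZMod.intCast_eq_intCast_iff', ZMod.val_intCast]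
    omega
  have hy : ∀ z w : ℤ, (2 : ZMod 8) * (((z : ZMod 4)).val : ZMod 8) * (((w : ZMod 4)).val : ZMod 8) =
      2 * (z : ZMod 8) * (w : ZMod 8) := fun z w => by
    have hz : ∃ i, ((((z : ZMod 4)).val : ℕ) : ℤ) = z + 4 * i := ⟨-(z / 4), by
      rw [ZMod.val_intCast]; omega⟩
    have hw : ∃ i, ((((w : ZMod 4)).val : ℕ) : ℤ) = w + 4 * i := ⟨-(w / 4), by
      rw [ZMod.val_intCast]; omega⟩
    obtain ⟨i, hi⟩ := hz
    obtain ⟨k, hk⟩ := hw
    rw [← Int.cast_natCast, hi, ← Int.cast_natCast, hk]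
    push_cast
    have h8 : (8 : ZMod 8) = 0 := by decide
    linear_combination ((i : ZMod 8) * (w : ZMod 8) + (z : ZMod 8) * k + 4 * (i : ZMod 8) * k) * h8
  have := eightChar_table (x : ZMod 8) (x' : ZMod 8) (y : ZMod 4) (y' : ZMod 4)
  rw [hx, hx, hy] at this
  rw [eightChar, eightChar, eightChar, ← this]
  simp only [QuadraticAlgebra.re_mul, QuadraticAlgebra.im_mul]
  push_cast
  ring_nf

theorem eightChar_intCast (n : ℤ) : eightChar (n : EightInt) = gEight (n : ZMod 8) := by
  simp [eightChar, cEight]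

theorem eightChar_neg (α : EightInt) : eightChar (-α) = -eightChar α := by
  rw [← neg_one_mul, eightChar_mul, show (-1 : EightInt) = ((-1 : ℤ) : EightInt) by simp,
    eightChar_intCast, show gEight ((-1 : ℤ) : ZMod 8) = -1 by decide]
  ring

theorem eightChar_star (α : EightInt) : eightChar (star α) = eightChar α := by
  have h : ∀ y : ZMod 4, cEight (-y) = cEight y := by decide
  simp [eightChar, h]

/-- `(-2 / d)`. -/
theorem jacobiSym_neg_two_eight {d : ℕ} (h2 : Odd d) :
    jacobiSym (-((2 : ℕ) : ℤ)) d = gEight (d : ZMod 8) := by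
  rw [jacobiSym.mod_right _ h2]
  have h2' := Nat.odd_iff.mp h2
  have hm : d % (4 * (-((2 : ℕ) : ℤ)).natAbs) = d % 8 := by norm_num
  rw [hm, ← ZMod.natCast_mod d 8]
  have hlt : d % 8 < 8 := Nat.mod_lt _ (by norm_num)
  have h2'' : d % 8 % 2 = 1 := by omega
  generalize d % 8 = r at *
  interval_cases r <;> first
    | omega
    | (norm_num; decide)

theorem norm_eq_eight (α : EightInt) : α.norm = α.re ^ 2 + 2 * α.im ^ 2 := by
  rw [QuadraticAlgebra.norm_def]; ring

theorem norm_eq_zero_eight {α : EightInt} : α.norm = 0 ↔ α = 0 := by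
  refine ⟨fun h => ?_, fun h => by rw [h]; exact QuadraticAlgebra.norm_zero⟩
  rw [norm_eq_eight] at h
  have him : α.im = 0 := by
    by_contra him
    nlinarith [sq_nonneg α.re, sq_pos_of_ne_zero him]
  rw [him] at h
  exact QuadraticAlgebra.ext (by simpa using h) (by simpa using him)

instance : NoZeroDivisors EightInt where
  eq_zero_or_eq_zero_of_mul_eq_zero {a b} h := by
    have := congrArg QuadraticAlgebra.norm h
    rw [map_mul, QuadraticAlgebra.norm_zero, mul_eq_zero] at this
    exact this.imp norm_eq_zero_eight.mp norm_eq_zero_eight.mp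

instance : IsDomain EightInt := NoZeroDivisors.to_isDomain _

theorem norm_mul_star_eight (α : EightInt) : α * star α = (α.norm : EightInt) := by
  ext <;> simp [norm_eq_eight, pow_two] <;> ring

variable {K : Type*} [CommRing K] {c : K}

/-- The homomorphism `√-2 ↦ c`. -/
def evalEight (hc : c ^ 2 + 2 = 0) : EightInt →+* K :=
  (QuadraticAlgebra.lift ⟨c, by simp only [zsmul_eq_mul]; push_cast; linear_combination hc⟩ :
    EightInt →ₐ[ℤ] K).toRingHom

theorem evalEight_apply (hc : c ^ 2 + 2 = 0) (α : EightInt) :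
    evalEight hc α = (α.re : K) + (α.im : K) * c := by
  simp [evalEight, QuadraticAlgebra.lift]

theorem conj_root_eight (hc : c ^ 2 + 2 = 0) : (-c) ^ 2 + 2 = 0 := by linear_combination hc

theorem evalEight_star (hc : c ^ 2 + 2 = 0) (α : EightInt) :
    evalEight hc (star α) = evalEight (conj_root_eight hc) α := by
  rw [evalEight_apply, evalEight_apply, QuadraticAlgebra.re_star, QuadraticAlgebra.im_star]
  push_cast
  ring

theorem eightRoot_spec : (Complex.I * (Real.sqrt 2 : ℝ)) ^ 2 + 2 = 0 := by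
  have h := Real.mul_self_sqrt (show (0 : ℝ) ≤ 2 by norm_num)
  apply Complex.ext <;> simp [pow_two]

/-- The complex embedding. -/
def toCEight : EightInt →+* ℂ := evalEight eightRoot_spec

open scoped Classical in
/-- The elements of norm `n`. -/
def normSetEight (n : ℕ) : Finset EightInt :=
  ((Finset.Icc (-(n : ℤ)) n ×ˢ Finset.Icc (-(n : ℤ)) n).image
    fun x => (⟨x.1, x.2⟩ : EightInt)).filter fun α => α.norm = (n : ℤ)

theorem mem_normSetEight {n : ℕ} {α : EightInt} : α ∈ normSetEight n ↔ α.norm = (n : ℤ) := by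
  simp only [normSetEight, Finset.mem_filter, and_iff_right_iff_imp, Finset.mem_image]
  intro h
  rw [norm_eq_eight] at h
  refine ⟨(α.re, α.im), ?_, rfl⟩
  simp only [Finset.mem_product, Finset.mem_Icc]
  refine ⟨⟨?_, ?_⟩, ?_, ?_⟩ <;>
    nlinarith [Int.le_self_sq α.re, Int.le_self_sq (-α.re), Int.le_self_sq α.im,
      Int.le_self_sq (-α.im)]

/-- `∑ χ (α) α`. -/
def eightSum (n : ℕ) : EightInt := ∑ α ∈ normSetEight n, (eightChar α : EightInt) * α

/-- The coefficients of the series. -/
def eightCoeff (n : ℕ) : ℂ := 1 / 2 * toCEight (eightSum n)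

theorem eightCoeff_zero : eightCoeff 0 = 0 := by
  have h : eightSum 0 = 0 := Finset.sum_eq_zero fun α hα => by
    rw [mem_normSetEight, Nat.cast_zero, norm_eq_zero_eight] at hα
    simp [hα]
  rw [eightCoeff, h, map_zero, mul_zero]

theorem eightCoeff_one : eightCoeff 1 = 1 := by
  have hset : normSetEight 1 = {1, -1} := by
    ext α
    simp only [mem_normSetEight, Finset.mem_insert, Finset.mem_singleton]
    refine ⟨fun h => ?_, ?_⟩
    · rw [norm_eq_eight, Nat.cast_one] at h
      have him : α.im = 0 := by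
        by_contra him
        nlinarith [sq_nonneg α.re, sq_pos_of_ne_zero him]
      rw [him] at h
      rcases Int.eq_one_or_neg_one_of_mul_eq_one (show α.re * α.re = 1 by linarith) with e | e
      · exact Or.inl (QuadraticAlgebra.ext (by simpa using e) (by simpa using him))
      · exact Or.inr (QuadraticAlgebra.ext (by simpa using e) (by simpa using him))
    · rintro (rfl | rfl) <;> simp
  have h1 : eightChar 1 = 1 := by decide +kernel
  rw [eightCoeff, eightSum, hset, Finset.sum_pair (by simp [QuadraticAlgebra.ext_iff]),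
    eightChar_neg, h1]
  simp only [Int.cast_one, Int.cast_neg, neg_mul_neg, one_mul, map_add, map_one]
  norm_num

theorem eightCoeff_two (m : ℕ) : eightCoeff (2 * m) = 0 := by
  have h : eightSum (2 * m) = 0 := Finset.sum_eq_zero fun α hα => by
    have hn := mem_normSetEight.mp hα
    rw [norm_eq_eight] at hn
    push_cast at hn
    have he : (2 : ℤ) ∣ α.re := (Nat.prime_iff_prime_int.mp Nat.prime_two).dvd_of_dvd_pow (n := 2)
      ⟨m - α.im ^ 2, by push_cast; linarith⟩
    obtain ⟨u, hu⟩ := he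
    have hg : ∀ u : ZMod 8, gEight (2 * u) = 0 := by decide
    rw [eightChar, hu, show ((2 * u : ℤ) : ZMod 8) = 2 * (u : ZMod 8) by push_cast; ring, hg, zero_mul,
      Int.cast_zero, zero_mul]
  rw [eightCoeff, h, map_zero, mul_zero]

/-- Removing a factor. -/
theorem sum_image_mul_eight {π : EightInt} (hπ : π ≠ 0) (n : ℕ) :
    ∑ α ∈ (normSetEight n).image (π * ·), (eightChar α : EightInt) * α =
      (eightChar π : EightInt) * π * eightSum n := by
  classical
  rw [Finset.sum_image fun x _ y _ h => mul_left_cancel₀ hπ h, eightSum, Finset.mul_sum]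
  refine Finset.sum_congr rfl fun β _ => ?_
  rw [eightChar_mul, Int.cast_mul]
  ring

theorem mem_image_mul_eight {π : EightInt} {k n : ℕ} (hk : π.norm = (k : ℤ)) (hk0 : 0 < k)
    {α : EightInt} :
    α ∈ (normSetEight n).image (π * ·) ↔ α ∈ normSetEight (k * n) ∧ π ∣ α := by
  simp only [Finset.mem_image, mem_normSetEight]
  constructor
  · rintro ⟨β, h2, rfl⟩
    exact ⟨by rw [map_mul, hk, h2, Nat.cast_mul], dvd_mul_right _ _⟩
  · rintro ⟨h2, β, rfl⟩
    refine ⟨β, ?_, rfl⟩
    rw [map_mul, hk, Nat.cast_mul] at h2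
    exact mul_left_cancel₀ (by exact_mod_cast hk0.ne') h2

theorem natCast_dvd_eight {p : ℕ} {α : EightInt} (h1 : (p : ℤ) ∣ α.re) (h2 : (p : ℤ) ∣ α.im) :
    (p : EightInt) ∣ α := by
  obtain ⟨a, ha⟩ := h1
  obtain ⟨b, hb⟩ := h2
  refine ⟨⟨a, b⟩, ?_⟩
  ext <;> simp [ha, hb]

theorem eightCoeff_inert {p : ℕ} (hp : p.Prime) (h2 : p ≠ 2) (h : ¬ IsSquare (-2 : ZMod p))
    (m : ℕ) :
    eightCoeff (p * m) + (if p ∣ m then (p : ℂ) * eightCoeff (m / p) else 0) = 0 := by
  classical
  have := Fact.mk hp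
  have hχ : eightChar (p : EightInt) = -1 := by
    rw [← Int.cast_natCast, eightChar_intCast, Int.cast_natCast,
      ← jacobiSym_neg_two_eight (Nat.Prime.odd_of_ne_two hp h2),
      ← jacobiSym.legendreSym.to_jacobiSym, legendreSym.eq_neg_one_iff]
    simpa using h
  have hdiv : ∀ α ∈ normSetEight (p * m), (p : EightInt) ∣ α ∧ p ∣ m := fun α hα => by
    have hn := mem_normSetEight.mp hα
    have h0 : ((α.re ^ 2 + 2 * α.im ^ 2 : ℤ) : ZMod p) = 0 := by
      rw [← norm_eq_eight, hn]; push_cast; simp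
    push_cast at h0
    have hb : (α.im : ZMod p) = 0 := by
      by_contra hb
      refine h ⟨(α.re : ZMod p) / α.im, ?_⟩
      field_simp
      linear_combination -h0
    have ha : (α.re : ZMod p) = 0 := by
      rw [hb] at h0
      simpa using h0
    have hd : (p : EightInt) ∣ α := natCast_dvd_eight
      ((ZMod.intCast_zmod_eq_zero_iff_dvd _ p).mp ha) ((ZMod.intCast_zmod_eq_zero_iff_dvd _ p).mp hb)
    refine ⟨hd, ?_⟩
    obtain ⟨β, rfl⟩ := hd
    rw [map_mul, QuadraticAlgebra.norm_natCast, Nat.cast_mul, pow_two, mul_assoc] at hn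
    exact Int.natCast_dvd_natCast.mp ⟨β.norm,
      (mul_left_cancel₀ (Int.natCast_ne_zero.mpr hp.ne_zero) hn).symm⟩
  by_cases hm : p ∣ m
  · obtain ⟨k, rfl⟩ := hm
    have he : normSetEight (p * (p * k)) = (normSetEight k).image ((p : EightInt) * ·) := by
      ext α
      rw [mem_image_mul_eight (k := p * p) (by rw [QuadraticAlgebra.norm_natCast]; push_cast; ring)
        (Nat.mul_pos hp.pos hp.pos), mul_assoc]
      exact ⟨fun h => ⟨h, (hdiv α h).1⟩, And.left⟩
    rw [if_pos (dvd_mul_right p k), Nat.mul_div_cancel_left _ hp.pos, eightCoeff, eightCoeff,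
      eightSum, he, sum_image_mul_eight (Nat.cast_ne_zero.mpr hp.ne_zero), hχ, map_mul, map_mul,
      map_intCast, map_natCast, Int.cast_neg, Int.cast_one]
    ring
  · rw [if_neg hm, add_zero, eightCoeff, eightSum,
      Finset.sum_eq_zero fun α hα => absurd (hdiv α hα).2 hm, map_zero, mul_zero]

theorem eightCoeff_split {p : ℕ} (hp : p.Prime) (h2 : p ≠ 2) {a b : ℤ}
    (h : (p : ℤ) = a ^ 2 + 2 * b ^ 2) (ha : eightChar ⟨a, b⟩ = 1) (m : ℕ) :
    eightCoeff (p * m) + (if p ∣ m then (p : ℂ) * eightCoeff (m / p) else 0) =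
      ((2 * a : ℤ) : ℂ) * eightCoeff m := by
  classical
  have := Fact.mk hp
  set π : EightInt := ⟨a, b⟩ with hπ
  have hπn : π.norm = (p : ℤ) := by rw [norm_eq_eight, hπ, h]
  have hπ'n : (star π).norm = (p : ℤ) := by rw [QuadraticAlgebra.norm_star, hπn]
  have hne : ∀ {x : EightInt}, x.norm = (p : ℤ) → x ≠ 0 := fun hx e => by
    rw [e, QuadraticAlgebra.norm_zero] at hx
    exact hp.ne_zero (by exact_mod_cast hx.symm)
  have e2 : eightChar (star π) = 1 := by rw [eightChar_star, ha]
  have hmul : π * star π = ((p : ℤ) : EightInt) := by rw [norm_mul_star_eight, hπn]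
  have hp1 : eightChar ((p : ℤ) : EightInt) = 1 := by rw [← hmul, eightChar_mul, ha, e2, one_mul]
  -- the two kernels
  have hb : (b : ZMod p) ≠ 0 := fun hb => by
    obtain ⟨b', rfl⟩ := (ZMod.intCast_zmod_eq_zero_iff_dvd b p).mp hb
    have hq := Nat.prime_iff_prime_int.mp hp
    obtain ⟨a', rfl⟩ := hq.dvd_of_dvd_pow (n := 2) (a := a)
      ⟨1 - 2 * p * b' ^ 2, by linear_combination -h⟩
    have : (p : ℤ) ∣ 1 := ⟨a' ^ 2 + 2 * b' ^ 2,
      mul_left_cancel₀ (Int.natCast_ne_zero.mpr hp.ne_zero) (by linear_combination h)⟩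
    exact hp.not_dvd_one (Int.natCast_dvd_natCast.mp this)
  set c : ZMod p := -(a : ZMod p) / b with hc
  have hπz : (a : ZMod p) ^ 2 + 2 * (b : ZMod p) ^ 2 = 0 := by
    have := congrArg (Int.cast : ℤ → ZMod p) h
    push_cast at this
    rw [← this, ZMod.natCast_self]
  have hroot : c ^ 2 + 2 = 0 := by
    rw [hc]; field_simp; linear_combination hπz
  have hroot' := conj_root_eight hroot
  have hd : 2 * c ≠ 0 := fun e => by
    have h8z : ((2 ^ 3 : ℕ) : ZMod p) = 0 := by
      push_cast
      linear_combination 4 * hroot - 2 * c * e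
    rw [ZMod.natCast_eq_zero_iff] at h8z
    exact h2 ((Nat.prime_dvd_prime_iff_eq hp Nat.prime_two).mp (hp.dvd_of_dvd_pow h8z))
  have hev1 : evalEight hroot π = 0 := by
    rw [evalEight_apply, hc, hπ]
    field_simp
    ring
  have hev2 : evalEight hroot' (star π) = 0 := by
    rw [evalEight_star, evalEight_apply, neg_neg, ← evalEight_apply hroot, hev1]
  have hboth : ∀ α, evalEight hroot α = 0 → evalEight hroot' α = 0 → (p : EightInt) ∣ α := by
    intro α h1 h2
    rw [evalEight_apply] at h1 h2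
    have hbα : (α.im : ZMod p) = 0 := (mul_eq_zero.mp
      (show (α.im : ZMod p) * (2 * c) = 0 by linear_combination h1 - h2)).resolve_right hd
    rw [hbα, zero_mul, add_zero] at h1
    exact natCast_dvd_eight ((ZMod.intCast_zmod_eq_zero_iff_dvd _ p).mp h1)
      ((ZMod.intCast_zmod_eq_zero_iff_dvd _ p).mp hbα)
  have hd1 : ∀ α, π ∣ α ↔ evalEight hroot α = 0 := fun α => by
    refine ⟨fun ⟨β, hβ⟩ => by rw [hβ, map_mul, hev1, zero_mul], fun hα => ?_⟩
    obtain ⟨γ, hγ⟩ := hboth (α * star π) (by rw [map_mul, hα, zero_mul])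
      (by rw [map_mul, hev2, mul_zero])
    refine ⟨γ, mul_right_cancel₀ (hne hπ'n) ?_⟩
    rw [hγ, mul_right_comm, hmul, Int.cast_natCast]
  have hd2 : ∀ α, star π ∣ α ↔ evalEight hroot' α = 0 := fun α => by
    refine ⟨fun ⟨β, hβ⟩ => by rw [hβ, map_mul, hev2, zero_mul], fun hα => ?_⟩
    obtain ⟨γ, hγ⟩ := hboth (α * π) (by rw [map_mul, hev1, mul_zero])
      (by rw [map_mul, hα, zero_mul])
    refine ⟨γ, mul_right_cancel₀ (hne hπn) ?_⟩
    rw [hγ, mul_right_comm, mul_comm (star π) π, hmul, Int.cast_natCast]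
  set A := (normSetEight m).image (π * ·)
  set B := (normSetEight m).image (star π * ·)
  have hAB : A ∪ B = normSetEight (p * m) := by
    ext α
    rw [Finset.mem_union, mem_image_mul_eight hπn hp.pos, mem_image_mul_eight hπ'n hp.pos]
    refine ⟨fun h => h.elim And.left And.left, fun h => ?_⟩
    have h1 : evalEight hroot (α * star α) = 0 := by
      rw [norm_mul_star_eight, map_intCast, mem_normSetEight.mp h]
      push_cast
      simp
    rw [map_mul, evalEight_star, mul_eq_zero, ← hd1, ← hd2] at h1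
    exact h1.imp (⟨h, ·⟩) (⟨h, ·⟩)
  have hint : A ∩ B = if p ∣ m then
      (normSetEight (m / p)).image (((p : ℤ) : EightInt) * ·) else ∅ := by
    have hdvd : ∀ α, (α ∈ A ∩ B) ↔ α ∈ normSetEight (p * m) ∧ ((p : ℤ) : EightInt) ∣ α := fun α => by
      rw [Finset.mem_inter, mem_image_mul_eight hπn hp.pos, mem_image_mul_eight hπ'n hp.pos]
      refine ⟨fun ⟨⟨h, h1⟩, _, h2⟩ => ⟨h, ?_⟩, fun ⟨h, h'⟩ => ?_⟩
      · rw [Int.cast_natCast]
        exact hboth α ((hd1 α).mp h1) ((hd2 α).mp h2)
      · rw [← hmul] at h'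
        exact ⟨⟨h, dvd_of_mul_right_dvd h'⟩, h, dvd_of_mul_left_dvd h'⟩
    split_ifs with hm
    · obtain ⟨k, rfl⟩ := hm
      ext α
      rw [hdvd, Nat.mul_div_cancel_left _ hp.pos,
        mem_image_mul_eight (k := p * p) (by rw [QuadraticAlgebra.norm_intCast]; push_cast; ring)
          (Nat.mul_pos hp.pos hp.pos), mul_assoc]
    · refine Finset.eq_empty_iff_forall_notMem.mpr fun α hα => ?_
      obtain ⟨h, β, rfl⟩ := (hdvd α).mp hα
      have h' := mem_normSetEight.mp h
      rw [map_mul, QuadraticAlgebra.norm_intCast, Int.cast_id, Nat.cast_mul, pow_two, mul_assoc] at h'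
      exact hm (Int.natCast_dvd_natCast.mp ⟨β.norm,
        (mul_left_cancel₀ (Int.natCast_ne_zero.mpr hp.ne_zero) h').symm⟩)
  have hsum := Finset.sum_union_inter (s₁ := A) (s₂ := B)
    (f := fun α => (eightChar α : EightInt) * α)
  rw [hAB, hint, sum_image_mul_eight (hne hπn), sum_image_mul_eight (hne hπ'n), ha, e2, Int.cast_one,
    one_mul, one_mul, ← add_mul] at hsum
  have htr : π + star π = ((2 * a : ℤ) : EightInt) := by
    ext <;> simp [hπ]; ring
  rw [htr] at hsum
  have key := congrArg toCEight hsum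
  simp only [map_add, map_mul, map_intCast] at key
  rw [show eightCoeff m = 1 / 2 * toCEight (eightSum m) from rfl, eightCoeff, eightSum]
  split_ifs at key ⊢ with hm
  · rw [sum_image_mul_eight (by
      rw [Int.cast_natCast]; exact Nat.cast_ne_zero.mpr hp.ne_zero), hp1, Int.cast_one, one_mul,
      map_mul, map_intCast] at key
    rw [eightCoeff]
    push_cast at key ⊢
    linear_combination (1 / 2 : ℂ) * key
  · rw [Finset.sum_empty, map_zero] at key
    push_cast at key ⊢
    linear_combination (1 / 2 : ℂ) * key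

end FA.CM.Eight

end
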