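import Fermat.Agent.CM.Seven.Isogeny
import Fermat.Agent.Frob.MapHom
import Fermat.Agent.Frob.VarChange

/-!
# The endomorphism `√-2` of `y² = x³ + 4 x² + 2 x`

The curve two-isogenous to it with kernel `(0, 0)` is its twist by `-2`, so over a field with
`s² = -2` the isogeny becomes an endomorphism `e_s` with `e_s ∘ e_s = -2`.
-/

set_option autoImplicit false
set_option linter.unusedSectionVars false

noncomputable section

open WeierstrassCurve
open FA.CM.Seven (twoCurve isogHom isogFun isogHom_apply isogFun_some twoCurve_equation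
  twoCurve_negY isogEquation hom_eq_of_generic)

namespace FA.CM.Eight

universe u

variable {k : Type u} [Field k]

/-- `y² = x³ + 4 x² + 2 x`. -/
abbrev eightCurve (k : Type u) [Field k] : WeierstrassCurve k := twoCurve 4 2

/-- The abscissa of the image of a point. -/
def endX (s x y : k) : k := (-s / 2) ^ 2 * (y / x) ^ 2

/-- The ordinate of the image of a point. -/
def endY (s x y : k) : k := (-s / 2) ^ 3 * (y * (x ^ 2 - 2) / x ^ 2)

theorem eightCurve_isElliptic (h2 : (2 : k) ≠ 0) : (eightCurve k).IsElliptic := ⟨by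
  rw [show (eightCurve k).Δ = (2 : k) ^ 9 by
    simp only [WeierstrassCurve.Δ, b₂, b₄, b₆, b₈]; ring]
  exact (pow_ne_zero _ h2).isUnit⟩

section maps

variable {s : k} (hs : s ^ 2 = -2) (h2 : (2 : k) ≠ 0)
include hs h2

/-- Scaling the isogenous curve back. -/
def scaleBack : VariableChange k :=
  ⟨⟨-s / 2, s, by field_simp; linear_combination -hs, by field_simp; linear_combination -hs⟩,
    0, 0, 0⟩

theorem scaleBack_spec :
    scaleBack hs h2 • eightCurve k = twoCurve (-2 * 4) (4 ^ 2 - 4 * 2) := by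
  refine WeierstrassCurve.ext ?_ ?_ ?_ ?_ ?_ <;>
    simp only [scaleBack, twoCurve, eightCurve, variableChange_a₁, variableChange_a₂,
      variableChange_a₃, variableChange_a₄, variableChange_a₆, Units.inv_mk, Units.val_mk]
  · ring
  · linear_combination 4 * hs
  · ring
  · linear_combination 2 * (s ^ 2 - 2) * hs
  · ring

theorem scaleBack_isElliptic : (twoCurve (-2 * 4) (4 ^ 2 - 4 * 2) : WeierstrassCurve k).IsElliptic := by
  have := eightCurve_isElliptic h2
  rw [← scaleBack_spec hs h2]
  infer_instance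

variable [DecidableEq k]

/-- **The endomorphism `e_s`.** -/
def endo : (eightCurve k).toAffine.Point →+ (eightCurve k).toAffine.Point :=
  haveI := eightCurve_isElliptic h2
  haveI := scaleBack_isElliptic hs h2
  (AddMonoidHom.mk' (FA.Frob.vcFun _ (scaleBack_spec hs h2))
      (FA.Frob.vcFun_add _ (scaleBack_spec hs h2))).comp isogHom

theorem endo_some {x y : k} (h : (eightCurve k).toAffine.Nonsingular x y) (hx : x ≠ 0) :
    ∃ h' : (eightCurve k).toAffine.Nonsingular (endX s x y) (endY s x y),
      endo hs h2 (.some _ _ h) = .some _ _ h' := by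
  have := eightCurve_isElliptic h2
  have := scaleBack_isElliptic hs h2
  have e := (FA.Frob.equation_vc _ (scaleBack_spec hs h2) _ _).mpr
    (isogEquation (a := (4 : k)) (b := 2) hx h.1)
  rw [show FA.Frob.vcX (scaleBack hs h2) ((y / x) ^ 2) = endX s x y by
      simp [FA.Frob.vcX, scaleBack, endX],
    show FA.Frob.vcY (scaleBack hs h2) ((y / x) ^ 2) (y * (x ^ 2 - 2) / x ^ 2) = endY s x y by
      simp [FA.Frob.vcY, scaleBack, endY]] at e
  refine ⟨Affine.equation_iff_nonsingular.mp e, ?_⟩
  simp only [endo, AddMonoidHom.comp_apply, AddMonoidHom.mk'_apply, isogHom_apply]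
  rw [isogFun_some hx]
  simp only [FA.Frob.vcFun, Affine.Point.some.injEq]
  constructor
  · simp [FA.Frob.vcX, scaleBack, endX]
  · simp [FA.Frob.vcY, scaleBack, endY]

theorem endo_some_zero {y : k} (h : (eightCurve k).toAffine.Nonsingular 0 y) :
    endo hs h2 (.some _ _ h) = 0 := by
  have := eightCurve_isElliptic h2
  have := scaleBack_isElliptic hs h2
  simp only [endo, AddMonoidHom.comp_apply, AddMonoidHom.mk'_apply, isogHom_apply]
  rw [show isogFun (.some 0 y h) = 0 from dif_pos rfl]
  rfl

/-- The kernel is `(0, 0)`. -/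
theorem endo_eq_zero {P : (eightCurve k).toAffine.Point} (hP : endo hs h2 P = 0) :
    P = 0 ∨ ∃ h : (eightCurve k).toAffine.Nonsingular 0 0, P = .some _ _ h := by
  rcases P with _ | ⟨x, y, h⟩
  · exact Or.inl rfl
  by_cases hx : x = 0
  · subst hx
    obtain rfl : y = 0 := by simpa using twoCurve_equation.mp h.1
    exact Or.inr ⟨h, rfl⟩
  · obtain ⟨h', e⟩ := endo_some hs h2 h hx
    rw [e] at hP
    exact absurd hP (Affine.Point.some_ne_zero _)

end maps

/-- `e_s` commutes with ring maps, which send `s` to the new root. -/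
theorem map_endo [DecidableEq k] {s t : k} (hs : s ^ 2 = -2) (ht : t ^ 2 = -2) (h2 : (2 : k) ≠ 0)
    (σ : k →+* k) (hσ : (eightCurve k).map σ = eightCurve k) (hst : σ s = t)
    (P : (eightCurve k).toAffine.Point) :
    FA.Frob.mapHom σ hσ (endo hs h2 P) = endo ht h2 (FA.Frob.mapHom σ hσ P) := by
  rcases P with _ | ⟨x, y, h⟩
  · rw [← Affine.Point.zero_def]; simp
  rw [FA.Frob.mapHom_some]
  by_cases hx : x = 0
  · subst hx
    generalize_proofs h'
    revert h'
    rw [map_zero]
    intro h'
    rw [endo_some_zero, endo_some_zero, map_zero]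
  · obtain ⟨h', e⟩ := endo_some hs h2 h hx
    obtain ⟨h'', e'⟩ := endo_some ht h2 (x := σ x) (y := σ y)
      (FA.Frob.nonsingular_mapHom σ hσ h) (by simpa using hx)
    rw [e, FA.Frob.mapHom_some, e']
    simp only [Affine.Point.some.injEq]
    constructor <;> simp [endX, endY, hst, map_ofNat]

/-- The other root gives the negative. -/
theorem endo_neg [DecidableEq k] {s : k} (hs : s ^ 2 = -2) (hs' : (-s) ^ 2 = -2) (h2 : (2 : k) ≠ 0)
    (P : (eightCurve k).toAffine.Point) : endo hs' h2 P = -endo hs h2 P := by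
  rcases P with _ | ⟨x, y, h⟩
  · rw [← Affine.Point.zero_def, map_zero, map_zero, neg_zero]
  by_cases hx : x = 0
  · subst hx; rw [endo_some_zero, endo_some_zero, neg_zero]
  obtain ⟨h', e⟩ := endo_some hs h2 h hx
  obtain ⟨h'', e'⟩ := endo_some hs' h2 h hx
  rw [e, e', Affine.Point.neg_some]
  simp only [Affine.Point.some.injEq, twoCurve_negY, endX, endY]
  constructor <;> ring

section algClosed

variable [DecidableEq k] [IsAlgClosed k] {s : k} (hs : s ^ 2 = -2) (h2 : (2 : k) ≠ 0)
include hs h2

/-- **`e_s ∘ e_s = -2`.** -/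
theorem endo_endo (P : (eightCurve k).toAffine.Point) :
    endo hs h2 (endo hs h2 P) = (-2 : ℤ) • P := by
  have := eightCurve_isElliptic h2
  suffices h : (endo hs h2).comp (endo hs h2) =
      -(AddMonoidHom.id _ + AddMonoidHom.id _) by
    have := DFunLike.congr_fun h P
    simp only [AddMonoidHom.comp_apply, AddMonoidHom.neg_apply, AddMonoidHom.add_apply,
      AddMonoidHom.id_apply] at this
    rw [this, neg_zsmul, two_zsmul]
  classical
  refine hom_eq_of_generic ({0} ∪ ((Polynomial.X ^ 2 + Polynomial.C 4 * Polynomial.X +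
    Polynomial.C 2 : Polynomial k).roots).toFinset) fun x y hn hx => ?_
  have hne0 : (Polynomial.X ^ 2 + Polynomial.C 4 * Polynomial.X + Polynomial.C 2 : Polynomial k) ≠ 0 :=
    Polynomial.Monic.ne_zero (by monicity!)
  simp only [Finset.mem_union, Finset.mem_singleton, Multiset.mem_toFinset,
    Polynomial.mem_roots hne0, Polynomial.IsRoot.def, Polynomial.eval_add, Polynomial.eval_mul,
    Polynomial.eval_pow, Polynomial.eval_X, Polynomial.eval_C, not_or] at hx
  obtain ⟨hx0, hq⟩ := hx
  have hc := twoCurve_equation.mp hn.1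
  have hy : y ≠ 0 := fun e => mul_ne_zero hx0 hq (by rw [e] at hc; linear_combination -hc)
  have hs0 : -s / 2 ≠ 0 := fun e => h2 (by
    have e' : s = 0 := by simpa [h2] using e
    linear_combination hs - s * e')
  obtain ⟨h₁, e₁⟩ := endo_some hs h2 hn hx0
  have hX : endX s x y ≠ 0 :=
    mul_ne_zero (pow_ne_zero _ hs0) (pow_ne_zero _ (div_ne_zero hy hx0))
  obtain ⟨h₃, e₂⟩ := endo_some hs h2 h₁ hX
  have hne : ¬ (x = x ∧ y = (eightCurve k).toAffine.negY x y) := fun e => hy (by
    rw [twoCurve_negY] at e; exact mul_left_cancel₀ h2 (by linear_combination e.2))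
  simp only [AddMonoidHom.comp_apply, AddMonoidHom.neg_apply, AddMonoidHom.add_apply,
    AddMonoidHom.id_apply, e₁, e₂, Affine.Point.add_some hne, Affine.Point.neg_some,
    Affine.Point.some.injEq]
  have hsl : (eightCurve k).toAffine.slope x x y y = (3 * x ^ 2 + 8 * x + 2) / (2 * y) := by
    rw [Affine.slope_of_Y_ne rfl fun e => hne ⟨rfl, e⟩, twoCurve_negY, sub_neg_eq_add, ← two_mul]
    congr 1
    simp only [zero_mul, sub_zero]
    ring
  have h4 : (4 : k) ≠ 0 := by rw [show (4 : k) = 2 * 2 by norm_num]; exact mul_ne_zero h2 h2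
  have hsq : (-s / 2) ^ 2 = -1 / 2 := by field_simp; linear_combination hs
  have eX : (eightCurve k).toAffine.addX x x ((eightCurve k).toAffine.slope x x y y) =
      (x ^ 2 - 2) ^ 2 / (4 * y ^ 2) := by
    rw [hsl, Affine.addX]
    simp only [zero_mul, add_zero]
    field_simp
    linear_combination -16 * (4 + 2 * x) * hc
  constructor
  · rw [eX, endX, endY, endX, pow_succ (-s / 2) 2, hsq]
    field_simp
    linear_combination (16 * x ^ 2 - 4 * x ^ 4 - 16) * hs
  · simp only [Affine.addY, Affine.negAddY, twoCurve_negY]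
    rw [eX, hsl, endY, endY, endX, pow_succ (-s / 2) 2, hsq]
    field_simp
    linear_combination ((16 - 72 * x ^ 2) * (y ^ 2 + (x ^ 3 + 4 * x ^ 2 + 2 * x)) + 64 * x ^ 3 +
        256 * x ^ 4 + 96 * x ^ 5) * hc + (4 * x ^ 2 * y ^ 4 + 64 * x ^ 4 - 32 * x ^ 6 - 8 * y ^ 4) * hs

end algClosed

end FA.CM.Eight

end
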