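import Fermat.Agent.CM.Eight.Coeff
import Fermat.Agent.CM.LatticeTheta
import Fermat.Agent.Deform.EigenLift
import Mathlib.NumberTheory.DirichletCharacter.Basic

/-!
# The theta series of the Grössencharakter of `ℚ(√-2)` and its quadratic twists

On `(X, Y)`, standing for `α = X + Y √-2`, the function is `χ (α) ψ (N α)`; its lattice sum is a
cusp form of weight two with the coefficients `ψ (n) c (n)`.
-/

set_option autoImplicit false

noncomputable section

open CongruenceSubgroup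
open scoped QuadraticAlgebra

namespace FA.CM.Eight

variable {q : ℕ}

/-- The function on `ℤ²`. -/
def eightWeight (ψ : DirichletCharacter ℂ q) (a b : ℤ) : ℂ :=
  (eightChar ⟨a, b⟩ : ℂ) * ψ (((⟨a, b⟩ : EightInt).norm : ℤ) : ZMod q)

variable (ψ : DirichletCharacter ℂ q)

theorem eightWeight_periodic (a b s t : ℤ) :
    eightWeight ψ (a + 8 * q * s) (b + 8 * q * t) = eightWeight ψ a b := by
  rw [eightWeight, eightWeight]
  congr 1
  · rw [eightChar, eightChar]
    push_cast
    rw [show (8 : ZMod 8) = 0 by decide, show (8 : ZMod 4) = 0 by decide]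
    ring_nf
  · rw [norm_eq_eight, norm_eq_eight]
    push_cast
    simp

theorem eightWeight_intCast_mul (hψ : ∀ u : (ZMod q)ˣ, ψ u * ψ u = 1) {d : ℕ} (h2 : Odd d)
    (hq : d.Coprime q) (a b : ℤ) :
    eightWeight ψ (d * a) (d * b) =
      (jacobiSym (-((2 : ℕ) : ℤ)) d : ℂ) * eightWeight ψ a b := by
  have e : (⟨(d : ℤ) * a, (d : ℤ) * b⟩ : EightInt) = ((d : ℤ) : EightInt) * ⟨a, b⟩ := by
    ext <;> simp
  rw [eightWeight, eightWeight, e, eightChar_mul, eightChar_intCast,
    map_mul QuadraticAlgebra.norm, QuadraticAlgebra.norm_intCast, Int.cast_id,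
    jacobiSym_neg_two_eight h2, Int.cast_natCast]
  push_cast
  rw [map_mul ψ, pow_two ((d : ℕ) : ZMod q), map_mul ψ,
    show ((d : ℕ) : ZMod q) = ((ZMod.unitOfCoprime d hq : (ZMod q)ˣ) : ZMod q) from
      (ZMod.coe_unitOfCoprime d hq).symm, hψ]
  ring

/-- **The theta coefficients.** -/
theorem sum_eightWeight (n : ℕ) {s : Finset (ℤ × ℤ)}
    (hs : ∀ v : ℤ × ℤ, v ∈ s ↔ v.1 ^ 2 + 2 * v.2 ^ 2 = (n : ℤ)) :
    ∑ v ∈ s, eightWeight ψ v.1 v.2 * latLam 2 ((v.1 : ℂ), (v.2 : ℂ)) =
      2 * (ψ (n : ZMod q) * eightCoeff n) := by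
  have key : ∑ α ∈ normSetEight n, ψ (n : ZMod q) * ((eightChar α : ℂ) * toCEight α) =
      2 * (ψ (n : ZMod q) * eightCoeff n) := by
    rw [← Finset.mul_sum, eightCoeff, eightSum, map_sum]
    simp only [map_mul, map_intCast, Finset.mul_sum]
    refine Finset.sum_congr rfl fun α _ => ?_
    ring
  rw [← key]
  refine Finset.sum_nbij' (fun v => (⟨v.1, v.2⟩ : EightInt)) (fun α => (α.re, α.im))
    (fun v hv => ?_) (fun α hα => ?_) (fun _ _ => rfl) (fun _ _ => rfl) (fun v hv => ?_)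
  · rw [mem_normSetEight, norm_eq_eight]
    exact (hs v).mp hv
  · rw [mem_normSetEight, norm_eq_eight] at hα
    exact (hs _).mpr hα
  · rw [eightWeight, norm_eq_eight, (hs v).mp hv, Int.cast_natCast, toCEight, evalEight_apply,
      latLam]
    push_cast
    ring

/-- **The form.** -/
theorem exists_eightForm [NeZero q] (hψ : ∀ u : (ZMod q)ˣ, ψ u * ψ u = 1) :
    ∃ (N : ℕ) (f : CuspForm (Gamma0 N) 2), 0 < N ∧
      ∀ n : ℕ, ModularFormClass.qCoeff f n = ψ (n : ZMod q) * eightCoeff n := by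
  set M : ℕ := 8 * q with hM
  have : NeZero M := ⟨by simp [hM, NeZero.ne q]⟩
  obtain ⟨f, hf⟩ := exists_latForm_of_periodic (D := 2) (e := 1) (M := M) (M' := M) (one_mul M).symm
    (eightWeight ψ) (fun a b s t => by rw [hM]; push_cast; rw [eightWeight_periodic])
    (fun v _ => by simp)
    fun d hd a b => eightWeight_intCast_mul ψ hψ
      (Nat.coprime_two_right.mp
        (hd.coprime_dvd_right ((dvd_mul_right 2 2).trans (dvd_mul_right _ M))))
      (hd.coprime_dvd_right (Dvd.intro (2 * 2 * 8) (by rw [hM]; ring))) a b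
  generalize hN : 4 * 2 * M * M = N at f hf
  have : NeZero N := ⟨by simp [← hN, NeZero.ne M]⟩
  refine ⟨N, (2⁻¹ : ℂ) • f, NeZero.pos N, fun n => ?_⟩
  rw [← FA.Deform.qLin_apply, map_smul, Pi.smul_apply, FA.Deform.qLin_apply, hf,
    sum_eightWeight ψ n (fun v => by rw [mem_latSet]; simp [latQ]), smul_eq_mul]
  ring

end FA.CM.Eight

end
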