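import Fermat.Agent.CM.Eight.Trace
import Fermat.Agent.CM.Eight.Weight
import Fermat.Agent.CM.Common

/-!
# The L-functions of the curves with `j = 8000`

These are the quadratic twists of `y² = x³ + 4 x² + 2 x`, of discriminant `2⁹`.
-/

set_option autoImplicit false

noncomputable section

open WeierstrassCurve
open FA.Twists
open FA.CM.Seven (twoCurve)

namespace FA.CM.Eight

/-- `y² = x³ + 4 x² + 2 x` over `ℤ`. -/
def curveEight : WeierstrassCurve ℤ := ⟨0, 4, 0, 2, 0⟩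

theorem curveEight_invariants :
    curveEight.c₄ = 160 ∧ curveEight.c₆ = -1792 ∧ curveEight.Δ = 512 := by
  refine ⟨?_, ?_, ?_⟩ <;> norm_num [curveEight, c₄, c₆, WeierstrassCurve.Δ, b₂, b₄, b₆, b₈]

theorem good_curveEight {l : ℕ} (hl : l.Prime) (hl2 : l ≠ 2) : ¬ (l : ℤ) ∣ curveEight.Δ := by
  rw [curveEight_invariants.2.2]
  intro h
  have h' : l ∣ 2 ^ 9 := by exact_mod_cast h
  exact hl2 ((Nat.prime_dvd_prime_iff_eq hl Nat.prime_two).mp (hl.dvd_of_dvd_pow h'))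

/-- The character at the generators given by the traces. -/
theorem eightChar_eq_one {α β : ℤ} {l : ℕ} (hl : (l : ℤ) = α ^ 2 + 2 * β ^ 2)
    (h : (α % 4 = 1 ∧ (l % 16 = 1 ∨ l % 16 = 11)) ∨ (α % 4 = 3 ∧ (l % 16 = 3 ∨ l % 16 = 9))) :
    eightChar ⟨α, β⟩ = 1 := by
  have hd : (16 : ℤ) ∣ (l : ℤ) - ((α % 8) ^ 2 + 2 * (β % 4) ^ 2) := by
    refine ⟨α % 8 * (α / 8) + 4 * (α / 8) ^ 2 + β % 4 * (β / 4) + 2 * (β / 4) ^ 2, ?_⟩
    have ea : α % 8 + 8 * (α / 8) = α := Int.emod_add_mul_ediv α 8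
    have eb : β % 4 + 4 * (β / 4) = β := Int.emod_add_mul_ediv β 4
    nth_rewrite 1 [← ea, ← eb] at hl
    rw [hl]; ring
  show gEight (α : ZMod 8) * cEight (β : ZMod 4) = 1
  rw [show (α : ZMod 8) = ((α % 8 : ℤ) : ZMod 8) from (ZMod.intCast_mod α 8).symm,
    show (β : ZMod 4) = ((β % 4 : ℤ) : ZMod 4) from (ZMod.intCast_mod β 4).symm]
  have hα4 : α % 4 = α % 8 % 4 := by omega
  rcases (show α % 8 = 1 ∨ α % 8 = 3 ∨ α % 8 = 5 ∨ α % 8 = 7 by omega) with ha | ha | ha | ha <;>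
    rcases (show β % 4 = 0 ∨ β % 4 = 1 ∨ β % 4 = 2 ∨ β % 4 = 3 by omega) with hb | hb | hb | hb <;>
    rw [ha, hb] at hd <;> rw [ha] at hα4 <;> norm_num at hd <;>
    first
      | (exfalso; omega)
      | (rw [ha, hb]; decide)

/-- The traces. -/
theorem apOfModel_eight {l : ℕ} (hl : l.Prime) (hl2 : l ≠ 2) :
    (¬ IsSquare ((-2 : ℤ) : ZMod l) → curveEight.apOfModel l = 0) ∧
    (IsSquare ((-2 : ℤ) : ZMod l) → ∃ a b : ℤ, curveEight.apOfModel l = 2 * a ∧
      (l : ℤ) = a ^ 2 + 2 * b ^ 2 ∧ eightChar ⟨a, b⟩ = 1) := by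
  classical
  have := Fact.mk hl
  let K := AlgebraicClosure (ZMod l)
  have : CharP K l := charP_of_injective_algebraMap (algebraMap (ZMod l) K).injective l
  have := eightCurve_isElliptic (two_ne_zero_eight (k := K) hl2)
  have hW : (eightCurve K).map (frobenius K l) = eightCurve K := map_eightCurve _
  rw [FA.CM.EndoSquare.apOfModel_eq_trEnd curveEight (eightCurve K)
    (by ext <;> simp [curveEight, map_ofNat]) hW]
  refine ⟨fun h => trEnd_inert_eight hW hl2 h, fun h => ?_⟩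
  obtain ⟨a, b, h1, h2, h3⟩ := trEnd_split_eight hW hl2 h
  exact ⟨a, b, h1, h2, eightChar_eq_one h2 h3⟩

/-- The recursion of the sums. -/
theorem trace_recursion_eight {l : ℕ} (hl : l.Prime) (hl2 : l ≠ 2) (m : ℕ) :
    eightCoeff (l * m) + (if l ∣ m then (l : ℂ) * eightCoeff (m / l) else 0) =
      (curveEight.apOfModel l : ℂ) * eightCoeff m := by
  by_cases h : IsSquare ((-2 : ℤ) : ZMod l)
  · obtain ⟨a, b, ha, hb, hc⟩ := (apOfModel_eight hl hl2).2 h
    rw [ha]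
    exact eightCoeff_split hl hl2 hb hc m
  · rw [(apOfModel_eight hl hl2).1 h, Int.cast_zero, zero_mul]
    exact eightCoeff_inert hl hl2 (by simpa using h) m

/-- **The L-function of a twist.** -/
theorem LFunction_eight_twist (E : WeierstrassCurve ℚ) {x : ℚ} {D : ℤ} (hD : Squarefree D)
    (hx : x ≠ 0) (h4 : E.c₄ = x ^ 4 * (D : ℚ) ^ 2 * (curveEight.c₄ : ℚ))
    (h6 : E.c₆ = x ^ 6 * (D : ℚ) ^ 3 * (curveEight.c₆ : ℚ))
    {q : ℕ} (ψ : DirichletCharacter ℂ q)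
    (hψ : ∀ l : ℕ, l.Prime → ψ (l : ZMod q) = (twistSign D l : ℂ)) (n : ℕ) :
    (E.LFunction n : ℂ) = ψ (n : ZMod q) * eightCoeff n := by
  obtain ⟨e4, -, eΔ⟩ := curveEight_invariants
  exact FA.CM.LFunction_twist_eq_of_recursion (P := 2) (by rw [eΔ]; norm_num)
    eightCoeff_zero eightCoeff_one eightCoeff_two (fun l hl hl2 => good_curveEight hl hl2)
    (fun l hl hl2 => trace_recursion_eight hl hl2) hD hx h4 h6
    (FA.CM.LFunction_prime_pow_of_exponents Nat.prime_two E (z := x ^ 2 * D)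
      (mul_ne_zero (pow_ne_zero 2 hx) (Int.cast_ne_zero.mpr hD.ne_zero)) (A := 160) (B := 1)
      (β := 9) (by decide) (by decide) (Or.inr ⟨5, 5, by norm_num, by decide, by norm_num⟩)
      (by rw [h4, e4]; push_cast; ring)
      (by rw [FA.CM.twist_Δ h4 h6, eΔ]; push_cast; ring)) ψ hψ n

end FA.CM.Eight

end
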