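import Fermat.Agent.CM.Eight.Endo
import Fermat.Agent.CM.Eight.Arith
import Fermat.Agent.CM.EndoSquare
import Fermat.Agent.HasseBound.Main

/-!
# The traces of Frobenius of `y² = x³ + 4 x² + 2 x`

At the primes inert in `ℚ (√-2)` the trace vanishes, at the split primes it is `2 α` with
`l = α² + 2 β²`. The points of the kernel of `e³`, defined over the real subfield of the sixteenth
roots of unity, determine `α` modulo `4`.
-/

set_option autoImplicit false
set_option linter.unusedSectionVars false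

noncomputable section

open WeierstrassCurve FA.Frob
open FA.CM.Seven (twoCurve twoCurve_equation twoCurve_negY)

namespace FA.CM.Eight

section point

variable {k : Type} [Field k] {v : k}

theorem kernelPt_equation (hv : v ^ 4 - 4 * v ^ 2 + 2 = 0) :
    (eightCurve k).toAffine.Equation (v ^ 2 - 2) (2 * v) := by
  rw [twoCurve_equation]
  linear_combination -(v ^ 2 + 2) * hv

theorem root_conj (hv : v ^ 4 - 4 * v ^ 2 + 2 = 0) :
    (v ^ 3 - 3 * v) ^ 4 - 4 * (v ^ 3 - 3 * v) ^ 2 + 2 = 0 := by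
  linear_combination (v ^ 8 - 8 * v ^ 6 + 20 * v ^ 4 - 16 * v ^ 2 + 1) * hv

variable [DecidableEq k] (h2 : (2 : k) ≠ 0)

/-- A point killed by `e³`. -/
def kernelPt (hv : v ^ 4 - 4 * v ^ 2 + 2 = 0) : (eightCurve k).toAffine.Point :=
  haveI := eightCurve_isElliptic h2
  .some _ _ (Affine.equation_iff_nonsingular.mp (kernelPt_equation hv))

theorem kernelPt_neg (hv : v ^ 4 - 4 * v ^ 2 + 2 = 0) {w : k} (hw : w ^ 4 - 4 * w ^ 2 + 2 = 0)
    (e : w = -v) : kernelPt h2 hw = -kernelPt h2 hv := by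
  subst e
  simp only [kernelPt, Affine.Point.neg_some, Affine.Point.some.injEq, twoCurve_negY]
  constructor <;> ring

variable {s : k} (hs : s ^ 2 = -2) (hv : v ^ 4 - 4 * v ^ 2 + 2 = 0)

theorem endo_kernelPt :
    ∃ h : (eightCurve k).toAffine.Nonsingular (-v ^ 2) 0,
      endo hs h2 (kernelPt h2 hv) = .some _ _ h := by
  have := eightCurve_isElliptic h2
  have hx : v ^ 2 - 2 ≠ 0 := fun e => h2 (by linear_combination (v ^ 2 - 2) * e - hv)
  obtain ⟨h', e⟩ := endo_some hs h2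
    (Affine.equation_iff_nonsingular.mp (kernelPt_equation hv)) hx
  have eX : endX s (v ^ 2 - 2) (2 * v) = -v ^ 2 := by
    rw [endX]
    field_simp
    linear_combination v ^ 2 * hs + v ^ 2 * hv
  have eY : endY s (v ^ 2 - 2) (2 * v) = 0 := by
    rw [endY, show (v ^ 2 - 2) ^ 2 - 2 = 0 by linear_combination hv]
    ring
  revert h' e
  rw [eX, eY]
  exact fun h' e => ⟨h', e⟩

theorem endo_endo_kernelPt_ne_zero : endo hs h2 (endo hs h2 (kernelPt h2 hv)) ≠ 0 := by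
  obtain ⟨h, e⟩ := endo_kernelPt h2 hs hv
  have hx : -v ^ 2 ≠ 0 := fun e => h2 (by linear_combination (v ^ 2 - 4) * e + hv)
  obtain ⟨h', e'⟩ := endo_some hs h2 h hx
  rw [e, e']
  exact Affine.Point.some_ne_zero _

theorem endo_pow_three_kernelPt :
    endo hs h2 (endo hs h2 (endo hs h2 (kernelPt h2 hv))) = 0 := by
  obtain ⟨h, e⟩ := endo_kernelPt h2 hs hv
  have hx : -v ^ 2 ≠ 0 := fun e => h2 (by linear_combination (v ^ 2 - 4) * e + hv)
  obtain ⟨h', e'⟩ := endo_some hs h2 h hx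
  rw [e, e']
  revert h'
  rw [show endX s (-v ^ 2) 0 = 0 by simp [endX], show endY s (-v ^ 2) 0 = 0 by simp [endY]]
  exact fun h' _ => endo_some_zero hs h2 h'

/-- The conjugate point. -/
theorem kernelPt_conj : kernelPt h2 (root_conj hv) =
    -(kernelPt h2 hv + endo hs h2 (kernelPt h2 hv)) := by
  have := eightCurve_isElliptic h2
  obtain ⟨h, e⟩ := endo_kernelPt h2 hs hv
  have hd : v ^ 2 - 2 - -v ^ 2 ≠ 0 := fun e' => h2 (by
    have e2 : v ^ 2 - 1 = 0 := mul_left_cancel₀ h2 (by linear_combination e')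
    exact absurd (show (1 : k) = 0 by linear_combination (v ^ 2 - 3) * e2 - hv) one_ne_zero)
  rw [e]
  simp only [kernelPt]
  rw [Affine.Point.add_some (fun e' => hd (sub_eq_zero.mpr e'.1)), Affine.Point.neg_some]
  have hsl : (eightCurve k).toAffine.slope (v ^ 2 - 2) (-v ^ 2) (2 * v) 0 = v ^ 3 - 3 * v := by
    rw [Affine.slope_of_X_ne (fun e' => hd (sub_eq_zero.mpr e')), div_eq_iff hd]
    linear_combination -2 * v * hv
  simp only [hsl, Affine.Point.some.injEq, Affine.addX, Affine.addY, Affine.negAddY, twoCurve_negY]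
  constructor
  · ring
  · linear_combination (-v ^ 5 + 5 * v ^ 3 - 4 * v) * hv

end point

variable {k : Type} [Field k] [IsAlgClosed k] [DecidableEq k] {s : k}

/-- The kernel of `e³` is generated by a point not killed by `e²`. -/
theorem exists_of_endo_pow_three {h2 : (2 : k) ≠ 0} {hs : s ^ 2 = -2}
    {P R : (eightCurve k).toAffine.Point} (hP : endo hs h2 (endo hs h2 P) ≠ 0)
    (hP3 : endo hs h2 (endo hs h2 (endo hs h2 P)) = 0)
    (hR : endo hs h2 (endo hs h2 (endo hs h2 R)) = 0) :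
    ∃ x y : ℤ, R = x • P + y • endo hs h2 P := by
  set e := endo hs h2
  set T := e (e P) with hT
  have key : ∀ U, e U = 0 → ∃ z : ℤ, U = z • T := fun U hU => by
    obtain ⟨h, hTe⟩ := (endo_eq_zero hs h2 hP3).resolve_left hP
    rcases endo_eq_zero hs h2 hU with rfl | ⟨h', rfl⟩
    · exact ⟨0, (zero_zsmul _).symm⟩
    · exact ⟨1, by rw [one_zsmul, hTe]⟩
  obtain ⟨x, hx⟩ := key _ hR
  obtain ⟨y, hy⟩ := key (e (R - x • P)) (by rw [map_sub, map_sub, map_zsmul, map_zsmul, hx, sub_self])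
  obtain ⟨z, hz⟩ := key (R - x • P - y • e P) (by rw [map_sub, map_zsmul, hy, sub_self])
  refine ⟨x + z * -2, y, ?_⟩
  rw [hT, endo_endo hs h2 P, smul_smul, sub_sub, sub_eq_iff_eq_add] at hz
  rw [hz, add_smul]
  abel

variable {l : ℕ} [Fact l.Prime] [CharP k l]

theorem two_ne_zero_eight (hl2 : l ≠ 2) : (2 : k) ≠ 0 := by
  rw [show (2 : k) = ((2 : ℕ) : k) by norm_num, Ne, CharP.cast_eq_zero_iff k l]
  exact fun h => hl2 ((Nat.prime_dvd_prime_iff_eq Fact.out Nat.prime_two).mp h)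

theorem map_eightCurve (σ : k →+* k) : (eightCurve k).map σ = eightCurve k := by
  ext <;> simp [map_ofNat]

/-- `s^l = (-2 / l) s`. -/
theorem frobenius_sqrt_eight (hs : s ^ 2 = -2) (hl2 : l ≠ 2) :
    (IsSquare ((-2 : ℤ) : ZMod l) → frobenius k l s = s) ∧
      (¬ IsSquare ((-2 : ℤ) : ZMod l) → frobenius k l s = -s) :=
  FA.CM.EndoSquare.frobenius_sqrt hl2 (by
    rw [Ne, ZMod.intCast_zmod_eq_zero_iff_dvd, Int.dvd_neg,
      show (2 : ℤ) = ((2 : ℕ) : ℤ) from rfl, Int.natCast_dvd_natCast]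
    exact fun h => hl2 ((Nat.prime_dvd_prime_iff_eq Fact.out Nat.prime_two).mp h))
    (by rw [hs]; norm_num)

/-- The congruences used for the sign. -/
theorem sign_congruences : ∀ a x y : ZMod 8,
    ((1 + 4 * y) * (1 + 4 * y) - 2 * ((0 - 2 * x) * (0 - 2 * x)) - a * (1 + 4 * y) + 1 = 0 → a = 2) ∧
    ((-1 + 4 * y) * (-1 + 4 * y) - 2 * ((0 - 2 * x) * (0 - 2 * x)) - a * (-1 + 4 * y) + 1 = 0 →
      a = -2) ∧
    ((-1 + 4 * y) * (-1 + 4 * y) - 2 * ((-1 - 2 * x) * (-1 - 2 * x)) - a * (-1 + 4 * y) + 3 = 0 →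
      a = -2) ∧
    ((1 + 4 * y) * (1 + 4 * y) - 2 * ((1 - 2 * x) * (1 - 2 * x)) - a * (1 + 4 * y) + 3 = 0 → a = 2) := by
  decide

variable [(eightCurve k).IsElliptic] [DecidableEq (FF (eightCurve k))]
  (hW : (eightCurve k).map (frobenius k l) = eightCurve k)

local notation "π" => frobEnd (eightCurve k) hW
local notation "tr" => trEnd (eightCurve k) hW

include hW

/-- At an inert prime the trace vanishes. -/
theorem trEnd_inert_eight (hl2 : l ≠ 2) (h : ¬ IsSquare ((-2 : ℤ) : ZMod l)) : tr = 0 := by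
  have h2 := two_ne_zero_eight (k := k) hl2
  obtain ⟨s, hs⟩ := IsAlgClosed.exists_pow_nat_eq (-2 : k) two_pos
  have hs' : (-s) ^ 2 = -2 := by rw [neg_sq, hs]
  have hσs := (frobenius_sqrt_eight hs hl2).2 h
  exact FA.CM.EndoSquare.trEnd_eq_zero_of_anticommute _ hW (by norm_num) (endo hs h2)
    (fun P => by rw [frobEnd, map_endo hs hs' h2 _ hW hσs, endo_neg hs hs'])
    (endo_endo hs h2)

/-- **At a split prime** the trace is `2 α` with `l = α² + 2 β²`, and `α mod 4` is determined. -/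
theorem trEnd_split_eight (hl2 : l ≠ 2) (h : IsSquare ((-2 : ℤ) : ZMod l)) :
    ∃ α β : ℤ, tr = 2 * α ∧ (l : ℤ) = α ^ 2 + 2 * β ^ 2 ∧
      ((α % 4 = 1 ∧ (l % 16 = 1 ∨ l % 16 = 11)) ∨ (α % 4 = 3 ∧ (l % 16 = 3 ∨ l % 16 = 9))) := by
  have hl := (Fact.out : l.Prime)
  have h2 := two_ne_zero_eight (k := k) hl2
  obtain ⟨s, hs⟩ := IsAlgClosed.exists_pow_nat_eq (-2 : k) two_pos
  have hσs := (frobenius_sqrt_eight hs hl2).1 h
  set e := endo hs h2
  have hFe : ∀ P, π (e P) = e (π P) := fun P => map_endo hs hs h2 _ hW hσs P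
  have hee : ∀ P, e (e P) = (-2 : ℤ) • P := endo_endo hs h2
  set a := tr
  -- the residue of `l`
  have hlo := hl.odd_of_ne_two hl2
  have hl8 : l % 8 = 1 ∨ l % 8 = 3 := by
    by_contra hne
    have h1 : jacobiSym (-2) l = 1 := by
      rw [← jacobiSym.legendreSym.to_jacobiSym, legendreSym.eq_one_iff _ ?_]
      · exact h
      · rw [Ne, ZMod.intCast_zmod_eq_zero_iff_dvd, Int.dvd_neg,
          show (2 : ℤ) = ((2 : ℕ) : ℤ) from rfl, Int.natCast_dvd_natCast]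
        exact fun h0 => hl2 ((Nat.prime_dvd_prime_iff_eq hl Nat.prime_two).mp h0)
    rw [jacobiSym_neg_two_if hlo, if_neg hne] at h1
    norm_num at h1
  -- a sixteenth root of unity
  obtain ⟨ζ, hζ⟩ := IsAlgClosed.exists_pow_nat_eq (-1 : k) (show 0 < 8 by norm_num)
  have h16 : ζ ^ 16 = 1 := by linear_combination (ζ ^ 8 - 1) * hζ
  set v := ζ - ζ ^ 7 with hvdef
  have hv : v ^ 4 - 4 * v ^ 2 + 2 = 0 := by
    rw [hvdef]
    linear_combination (ζ ^ 20 - 4 * ζ ^ 14 - ζ ^ 12 + 6 * ζ ^ 8 + ζ ^ 4 - 4 * ζ ^ 2 + 2) * hζ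
  have hfr : frobenius k l v = ζ ^ (l % 16) - (ζ ^ 7) ^ (l % 16) := by
    have e16 : (ζ ^ 7) ^ 16 = 1 := by rw [← pow_mul, mul_comm, pow_mul, h16, one_pow]
    rw [hvdef, map_sub, frobenius_def, frobenius_def]
    conv_lhs => rw [← Nat.div_add_mod l 16, pow_add, pow_add, pow_mul, pow_mul, h16, e16, one_pow,
      one_mul, one_mul]
  set P := kernelPt h2 hv with hPdef
  obtain ⟨i₀, j₀, hij, hcase⟩ : ∃ i j : ℤ, π P = i • P + j • e P ∧
      ((l % 16 = 1 ∧ i = 1 ∧ j = 0) ∨ (l % 16 = 9 ∧ i = -1 ∧ j = 0) ∨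
        (l % 16 = 3 ∧ i = -1 ∧ j = -1) ∨ (l % 16 = 11 ∧ i = 1 ∧ j = 1)) := by
    have hmap : ∀ {w : k} (hw : w ^ 4 - 4 * w ^ 2 + 2 = 0), frobenius k l v = w →
        π P = kernelPt h2 hw := fun {w} hw hvw => by
      simp only [hPdef, kernelPt, frobEnd, mapHom_some, Affine.Point.some.injEq]
      rw [← hvw]
      constructor <;> simp [map_ofNat]
    rcases (show l % 16 = 1 ∨ l % 16 = 9 ∨ l % 16 = 3 ∨ l % 16 = 11 by omega) with h0 | h0 | h0 | h0
    · refine ⟨1, 0, ?_, Or.inl ⟨h0, rfl, rfl⟩⟩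
      rw [one_zsmul, zero_zsmul, add_zero, hmap hv (by rw [hfr, h0, pow_one, pow_one])]
    · refine ⟨-1, 0, ?_, Or.inr (Or.inl ⟨h0, rfl, rfl⟩)⟩
      have e : frobenius k l v = -v := by
        rw [hfr, h0, hvdef]
        linear_combination (-ζ ^ 55 + ζ ^ 47 - ζ ^ 39 + ζ ^ 31 - ζ ^ 23 + ζ ^ 15 - ζ ^ 7 + ζ) * hζ
      have hw : (frobenius k l v) ^ 4 - 4 * (frobenius k l v) ^ 2 + 2 = 0 := by
        rw [e]; linear_combination hv
      rw [neg_one_zsmul, zero_zsmul, add_zero, hmap hw rfl, kernelPt_neg h2 hv hw e]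
    · refine ⟨-1, -1, ?_, Or.inr (Or.inr (Or.inl ⟨h0, rfl, rfl⟩))⟩
      rw [hmap (root_conj hv) (by rw [hfr, h0, hvdef]; linear_combination (-3 * ζ ^ 7 + 3 * ζ) * hζ),
        kernelPt_conj h2 hs hv, neg_one_zsmul, neg_one_zsmul, neg_add]
    · refine ⟨1, 1, ?_, Or.inr (Or.inr (Or.inr ⟨h0, rfl, rfl⟩))⟩
      have e : frobenius k l v = -(v ^ 3 - 3 * v) := by
        rw [hfr, h0, hvdef]
        linear_combination (-ζ ^ 69 + ζ ^ 61 - ζ ^ 53 + ζ ^ 45 - ζ ^ 37 + ζ ^ 29 - ζ ^ 21 + 3 * ζ ^ 7 + ζ ^ 3 - 3 * ζ) * hζ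
      have hw : (frobenius k l v) ^ 4 - 4 * (frobenius k l v) ^ 2 + 2 = 0 := by
        rw [e]; linear_combination root_conj hv
      rw [one_zsmul, one_zsmul, hmap hw rfl, kernelPt_neg h2 (root_conj hv) hw e,
        kernelPt_conj h2 hs hv, neg_neg]
  -- a point of order eight above `P`
  have hP2 : e (e P) ≠ 0 := endo_endo_kernelPt_ne_zero h2 hs hv
  have hP3 : e (e (e P)) = 0 := endo_pow_three_kernelPt h2 hs hv
  obtain ⟨Q, hQ⟩ : ∃ Q, e (e (e Q)) = P := by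
    have hsurj : Function.Surjective e := fun R => by
      have := surjective_of_spec (eightCurve k)
        ((MM (eightCurve k)).zsmul_mem (gen_mem (eightCurve k)) 2)
        ((spec_gen (eightCurve k)).zsmul (eightCurve k) 2)
        (not_insep_zsmul_gen (eightCurve k) (by exact_mod_cast h2))
      obtain ⟨U, hU⟩ := this R
      refine ⟨-e U, ?_⟩
      rw [map_neg, hee, neg_zsmul, neg_neg]
      exact hU
    obtain ⟨A, hA⟩ := hsurj P
    obtain ⟨B, hB⟩ := hsurj A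
    obtain ⟨C, hC⟩ := hsurj B
    exact ⟨C, by rw [hC, hB, hA]⟩
  obtain ⟨x, y, hxy⟩ := exists_of_endo_pow_three (h2 := h2) (hs := hs) hP2 hP3
    (R := π Q - i₀ • Q - j₀ • e Q) (by
      simp only [map_sub, map_zsmul]
      rw [← hFe Q, ← hFe (e Q), ← hFe (e (e Q)), hQ, hij]
      abel)
  have hPQ : P = (-2 : ℤ) • e Q := by rw [← hQ, hee]
  set i := i₀ + 4 * y with hi
  set j := j₀ - 2 * x with hj
  have hFQ : π Q = i • Q + j • e Q := by
    rw [sub_eq_iff_eq_add, sub_eq_iff_eq_add] at hxy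
    rw [hxy, hPQ, map_zsmul, hee, smul_smul, smul_smul, smul_smul, hi, hj, add_smul, sub_smul]
    rw [show y * -2 * -2 = 4 * y by ring, show x * -2 = -(2 * x) by ring, neg_smul]
    abel
  set c₀ := i * i - 2 * (j * j) - a * i + l with hc₀
  set c₁ := 2 * (i * j) - a * j with hc₁
  have hq : c₀ • Q + c₁ • e Q = 0 := by
    have hq := frobEnd_quadratic (eightCurve k) hW Q
    rw [hFQ, map_add, map_zsmul, map_zsmul, hFe, hFQ, map_add, map_zsmul, map_zsmul, hee] at hq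
    rw [← hq, hc₀, hc₁]
    simp only [smul_add, smul_smul, add_smul, sub_smul, two_mul]
    rw [show j * i = i * j by ring, show j * (j * -2) = -(j * j + j * j) by ring, neg_smul, add_smul]
    abel
  -- `e Q` has order `8`
  have hPe : e (e P) = (4 : ℤ) • e Q := by rw [hee, hPQ, smul_smul]; norm_num
  have h8Q : (8 : ℤ) • Q = 0 := by
    rw [hPe, map_zsmul, hee, smul_smul, show (4 : ℤ) * -2 = -8 by norm_num, neg_zsmul,
      neg_eq_zero] at hP3
    exact hP3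
  have h8A : (8 : ℤ) • e Q = 0 := by rw [← map_zsmul, h8Q, map_zero]
  have h4 : ∀ n : ℤ, (4 * n) • e Q = 0 → 2 ∣ n := fun n hn => by
    by_contra hd
    obtain ⟨m, rfl⟩ : ∃ m, n = 2 * m + 1 := ⟨n / 2, by omega⟩
    rw [show 4 * (2 * m + 1) = m * 8 + 4 by ring, add_smul, mul_smul, h8A, smul_zero, zero_add] at hn
    exact hP2 (hPe.trans hn)
  have hc₀8 : (8 : ℤ) ∣ c₀ := by
    have hA : c₀ • e Q + (c₁ * -2) • Q = 0 := by
      rw [← smul_smul, ← hee, ← map_zsmul e c₀, ← map_zsmul e c₁, ← map_add, hq, map_zero]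
    obtain ⟨c, hc⟩ := h4 c₀ (by
      have := congrArg ((4 : ℤ) • ·) hA
      simp only [smul_add, smul_zero, smul_smul] at this
      rwa [show 4 * (c₁ * -2) = -c₁ * 8 by ring, mul_smul _ 8, h8Q, smul_zero, add_zero] at this)
    obtain ⟨d, hd⟩ := h4 c₁ (by
      have := congrArg ((4 : ℤ) • ·) hq
      simp only [smul_add, smul_zero, smul_smul] at this
      rwa [hc, show 4 * (2 * c) = c * 8 by ring, mul_smul _ 8 Q, h8Q, smul_zero, zero_add] at this)
    obtain ⟨c', hc'⟩ := h4 c (by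
      have := congrArg ((2 : ℤ) • ·) hA
      simp only [smul_add, smul_zero, smul_smul] at this
      rwa [hc, hd, show 2 * (2 * d * -2) = -d * 8 by ring, mul_smul _ 8, h8Q, smul_zero, add_zero,
        ← mul_assoc, show (2 : ℤ) * 2 = 4 from rfl] at this)
    obtain ⟨d', hd'⟩ := h4 d (by
      have := congrArg ((2 : ℤ) • ·) hq
      simp only [smul_add, smul_zero, smul_smul] at this
      rwa [hc, hc', hd, show 2 * (2 * (2 * c')) = c' * 8 by ring, mul_smul _ 8 Q, h8Q, smul_zero,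
        zero_add, ← mul_assoc, show (2 : ℤ) * 2 = 4 from rfl] at this)
    obtain ⟨c'', hc''⟩ := h4 c' (by
      have := hA
      rwa [hc, hc', hd, hd', show 2 * (2 * d') * -2 = -d' * 8 by ring, mul_smul _ 8, h8Q, smul_zero,
        add_zero, ← mul_assoc, show (2 : ℤ) * 2 = 4 from rfl] at this)
    exact ⟨c'', by rw [hc, hc', hc'']; ring⟩
  have hmod : ((i * i - 2 * (j * j) - a * i + l : ℤ) : ZMod 8) = 0 :=
    (ZMod.intCast_zmod_eq_zero_iff_dvd _ 8).mpr hc₀8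
  have hl' : (l : ZMod 8) = ((l % 8 : ℕ) : ZMod 8) := (ZMod.natCast_mod l 8).symm
  simp only [hi, hj] at hmod
  push_cast at hmod
  rw [hl'] at hmod
  obtain ⟨s₁, s₉, s₃, s₁₁⟩ := sign_congruences (a : ZMod 8) (x : ZMod 8) (y : ZMod 8)
  obtain ⟨ε, hε, hεc⟩ : ∃ ε : ℤ, (a : ZMod 8) = ((2 * ε : ℤ) : ZMod 8) ∧
      ((ε = 1 ∧ (l % 16 = 1 ∨ l % 16 = 11)) ∨ (ε = -1 ∧ (l % 16 = 3 ∨ l % 16 = 9))) := by
    rcases hcase with ⟨h0, rfl, rfl⟩ | ⟨h0, rfl, rfl⟩ | ⟨h0, rfl, rfl⟩ | ⟨h0, rfl, rfl⟩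
    · rw [show l % 8 = 1 by omega] at hmod; push_cast at hmod
      exact ⟨1, (s₁ hmod).trans (by norm_num), Or.inl ⟨rfl, Or.inl h0⟩⟩
    · rw [show l % 8 = 1 by omega] at hmod; push_cast at hmod
      exact ⟨-1, (s₉ hmod).trans (by norm_num), Or.inr ⟨rfl, Or.inr h0⟩⟩
    · rw [show l % 8 = 3 by omega] at hmod; push_cast at hmod
      exact ⟨-1, (s₃ hmod).trans (by norm_num), Or.inr ⟨rfl, Or.inl h0⟩⟩
    · rw [show l % 8 = 3 by omega] at hmod; push_cast at hmod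
      exact ⟨1, (s₁₁ hmod).trans (by norm_num), Or.inl ⟨rfl, Or.inr h0⟩⟩
  have ha8 := (ZMod.intCast_eq_intCast_iff_dvd_sub _ _ 8).mp hε
  obtain ⟨α, hα⟩ : (2 : ℤ) ∣ a := by omega
  have hle : a ^ 2 ≤ 4 * (l : ℤ) := FA.HasseBound.trEnd_sq_le _ hW
  obtain ⟨N, hN⟩ : ∃ N : ℕ, (N : ℤ) = 2 * ((l : ℤ) - α ^ 2) := by
    rw [hα, mul_pow] at hle
    exact ⟨(2 * ((l : ℤ) - α ^ 2)).toNat, Int.toNat_of_nonneg (by linarith)⟩
  have hsq : IsSquare N := by
    by_contra hNsq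
    obtain ⟨m, hmB, hmp, hm2, hmN⟩ := exists_prime_symbols_eight hNsq (l + N + 2)
    have := Fact.mk hmp
    have hΔ : a ^ 2 - 4 * (l : ℤ) = -2 * (N : ℤ) := by rw [hN, hα]; ring
    have hd := FA.CM.EndoSquare.disc_dvd_of_commute _ hW e hFe hee (m := m) (by omega) (by omega)
      (ZMod.nonsquare_of_jacobiSym_eq_neg_one hm2) (ZMod.isSquare_of_jacobiSym_eq_one
        (by rw [hΔ, jacobiSym.mul_left, hm2, hmN]; norm_num))
    rw [hΔ, neg_mul, Int.dvd_neg, show (2 : ℤ) * (N : ℤ) = ((2 * N : ℕ) : ℤ) by push_cast; rfl,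
      Int.natCast_dvd_natCast] at hd
    rcases hmp.dvd_mul.mp hd with h0 | h0
    · have := Nat.le_of_dvd (by norm_num) h0; omega
    · rcases Nat.eq_zero_or_pos N with rfl | hpos
      · exact hNsq ⟨0, rfl⟩
      · have := Nat.le_of_dvd hpos h0; omega
  obtain ⟨r, hr⟩ := hsq
  obtain ⟨β, hβ⟩ : 2 ∣ r := by
    exact (Nat.prime_two.dvd_mul.mp
      (show 2 ∣ r * r from ⟨((l : ℤ) - α ^ 2).toNat, by omega⟩)).elim id id
  refine ⟨α, (β : ℤ), hα, ?_, ?_⟩
  · rw [hr, hβ] at hN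
    push_cast at hN
    linarith
  · rcases hεc with ⟨rfl, h0⟩ | ⟨rfl, h0⟩
    · exact Or.inl ⟨by omega, h0⟩
    · exact Or.inr ⟨by omega, h0⟩

end FA.CM.Eight

end
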